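/-
S12 project, row S12-LOCP (helper86), file 4: the determinant input.

* `cycloChar_eq_one_of_toZMod` : bridge from main's `p`-adic cyclotomic character
  (`ESJ.Rep.cyclo`, the one of `S58.EpRep.det_eq`) to the Prelude's `ExtCitation.cycloChar`;
* `cycloChar_eq_one_of_fix` : on an integral curve `W` (`Δ ≠ 0`), if `σ` fixes pointwise a
  subgroup `N` of `W[p]` with `σ x - x ∈ N` for every `x ∈ W[p]`, then the mod `p` cyclotomic
  character of `σ` is `1` (`det = 1` by Cayley–Hamilton on `E[p]`, `det = cyclo`);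
* `exists_inertia_moving` : hence some inertia element above `p` moves `N` (total ramification
  of the cyclotomic character at `p`: main `PT.G.exists_inertia_cycloChar_eq`).
-/
import Mathlib
import Fermat.Agent.S58.EpRep
import Fermat.Agent.PT.G.CycloField

set_option autoImplicit false

namespace Fermat.Agent.S12P.LocP86

open WeierstrassCurve Fermat.Agent.S58 Fermat.Agent.S58.EpRep
open scoped WeierstrassCurve.Affine

/-- From the `p`-adic cyclotomic character (mod `p`) to the Prelude's `cycloChar`. -/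
theorem cycloChar_eq_one_of_toZMod {p : ℕ} [Fact p.Prime] (σ : GQ)
    (h : PadicInt.toZMod ((Fermat.Agent.ESJ.Rep.cyclo p σ : ℤ_[p]ˣ) : ℤ_[p]) = 1) :
    ExtCitation.cycloChar p σ = 1 := by
  have hp : p.Prime := Fact.out
  have : NeZero p := ⟨hp.ne_zero⟩
  set x : ℤ_[p] := ((Fermat.Agent.ESJ.Rep.cyclo p σ : ℤ_[p]ˣ) : ℤ_[p]) with hx
  have h1 : x - 1 ∈ RingHom.ker (PadicInt.toZMod (p := p)) := by
    rw [RingHom.mem_ker, map_sub, map_one, h, sub_self]
  rw [PadicInt.ker_toZMod, PadicInt.maximalIdeal_eq_span_p] at h1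
  have h2 : x - 1 ∈ RingHom.ker (PadicInt.toZModPow (p := p) 1) := by
    rw [PadicInt.ker_toZModPow, pow_one]
    exact h1
  have h3 : PadicInt.toZModPow (p := p) 1 x = 1 := by
    rw [RingHom.mem_ker, map_sub, map_one] at h2
    exact sub_eq_zero.mp h2
  have hval : (PadicInt.toZModPow (p := p) 1 x).val = 1 := by
    rw [h3, ZMod.val_one_eq_one_mod]
    apply Nat.mod_eq_of_lt
    rw [pow_one]
    exact hp.one_lt
  have hfix : ∀ t : Qb, t ^ p = 1 → σ t = t := by
    intro t ht
    have := Fermat.Agent.ESJ.Rep.Cyclo.cyclo_spec p 1 σ t (by rwa [pow_one])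
    rw [← hx, hval, pow_one] at this
    exact this
  have hone : (1 : ZMod p).val = 1 := by
    rw [ZMod.val_one_eq_one_mod]
    exact Nat.mod_eq_of_lt hp.one_lt
  have huniq := modularCyclotomicCharacter.unique (L := Qb) (n := p)
    (ExtCitation.card_rootsOfUnity_eq_self p) (σ : Qb ≃+* Qb) (c := (1 : ZMod p)) (by
      intro t ht
      rw [hone, pow_one]
      have ht' : (t : Qb) ^ p = 1 := by
        have := (mem_rootsOfUnity p t).mp ht
        rw [← Units.val_pow_eq_pow_val, this, Units.val_one]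
      exact hfix (t : Qb) ht')
  apply Units.ext
  rw [Units.val_one]
  exact huniq.symm

/-- On `E[p]` of an integral curve: an automorphism fixing pointwise a subgroup `N ⊆ E[p]` with
`σ x - x ∈ N` for all `x ∈ E[p]` has trivial mod `p` cyclotomic character. -/
theorem cycloChar_eq_one_of_fix (W : WeierstrassCurve ℤ) (hΔ : W.Δ ≠ 0) {p : ℕ} [Fact p.Prime]
    (N : AddSubgroup (EPt W)) (σ : GQ)
    (hcof : ∀ x : EPt W, p • x = 0 → σ • x - x ∈ N)
    (hfix : ∀ x ∈ N, σ • x = x) : ExtCitation.cycloChar p σ = 1 := by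
  apply cycloChar_eq_one_of_toZMod
  rw [← det_eq hΔ σ]
  have hmem : ∀ x : Ep W p, p • (x : EPt W) = 0 := by
    intro x
    have := x.2
    rwa [Submodule.mem_torsionBy_iff, Nat.cast_smul_eq_nsmul] at this
  by_cases hall : ∀ x : Ep W p, σ • x = x
  · have : rhoE W p σ = LinearMap.id := by
      apply LinearMap.ext
      intro x
      rw [rhoE_apply, hall x]
      rfl
    rw [this, LinearMap.det_id]
  · obtain ⟨e, he⟩ := not_forall.mp hall
    set m : Ep W p := σ • e - e with hm
    have hm0 : m ≠ 0 := fun h0 => he (sub_eq_zero.mp h0)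
    have hmN : (m : EPt W) ∈ N := hcof (e : EPt W) (hmem e)
    have hσm : σ • m = m := Subtype.ext (hfix _ hmN)
    have hσe : σ • e = e + m := by rw [hm]; abel
    set d := LinearMap.det (rhoE W p σ) with hd
    set tr := LinearMap.trace (ZMod p) (Ep W p) (rhoE W p σ) with htr
    have c1 := cayley hΔ σ m
    have c2 := cayley hΔ σ e
    rw [← hd, ← htr] at c1 c2
    simp only [rhoE_apply] at c1 c2
    rw [hσm, hσm] at c1
    rw [hσe, smul_add, hσm, ← hσe, hσe] at c2
    have k1 : (1 - tr + d) • m = 0 := by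
      rw [add_smul, sub_smul, one_smul]
      exact c1
    have k1' : 1 - tr + d = 0 := (smul_eq_zero.mp k1).resolve_right hm0
    have k2 : (2 - tr) • m = 0 := by
      have e2 : (2 - tr) • m = (e + m + m - tr • (e + m) + d • e) - (1 - tr + d) • e := by
        rw [add_smul, sub_smul, sub_smul, one_smul, smul_add, two_smul]
        abel
      rw [e2, c2, k1', zero_smul, sub_zero]
    have k2' : 2 - tr = 0 := (smul_eq_zero.mp k2).resolve_right hm0
    have : d = 1 := by linear_combination k1' - k2'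
    exact this

/-- **Some inertia element above `p` moves `N`**, for a subgroup `N` of the points of an integral
curve with `σ x - x ∈ N` on `W[p]` for all `σ` (no hypothesis on the size of `N` is needed). -/
theorem exists_inertia_moving (W : WeierstrassCurve ℤ) (hΔ : W.Δ ≠ 0) {p : ℕ} [Fact p.Prime]
    (hp2 : p ≠ 2) (N : AddSubgroup (EPt W))
    (hcof : ∀ (σ : GQ) (x : EPt W), p • x = 0 → σ • x - x ∈ N)
    (A : ValuationSubring Qb) (hA : A.LiesOverPrime p) :
    ∃ σ ∈ A.inertiaSubgroupIn ℚ, ∃ x ∈ N, σ • x ≠ x := by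
  have hp : p.Prime := Fact.out
  have hne : (-1 : (ZMod p)ˣ) ≠ 1 := by
    intro h
    have h1 : ((-1 : (ZMod p)ˣ) : ZMod p) = ((1 : (ZMod p)ˣ) : ZMod p) := by rw [h]
    rw [Units.val_neg, Units.val_one] at h1
    have h2 : (2 : ZMod p) = 0 := by linear_combination -h1
    have h3 : ((2 : ℕ) : ZMod p) = 0 := by exact_mod_cast h2
    rw [ZMod.natCast_eq_zero_iff] at h3
    exact hp2 ((Nat.prime_dvd_prime_iff_eq hp Nat.prime_two).mp h3)
  obtain ⟨σ, hσ, hσu⟩ := Fermat.Agent.PT.G.exists_inertia_cycloChar_eq p A hA (-1)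
  refine ⟨σ, hσ, ?_⟩
  by_contra hcon
  have hcon' : ∀ x ∈ N, σ • x = x := fun x hx =>
    by_contra fun hne => hcon ⟨x, hx, hne⟩
  have := cycloChar_eq_one_of_fix W hΔ N σ (hcof σ) hcon'
  rw [hσu] at this
  exact hne this

end Fermat.Agent.S12P.LocP86
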