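/-
S12 project, row S12-LOCP (helper86), file 1: valuation lemmas in residue characteristic `p`.

* `val_sub_one_lt_of_pow` : `v p < 1`, `v (u ^ (p ^ j) - 1) < 1` ⟹ `v (u - 1) < 1`
  ("a `p`-power root of an element `≡ 1` is `≡ 1`");
* `galois_close_pow` : if `σ` acts trivially on the residue field, `σ τ = τ` and
  `v z ^ (p ^ j) = v τ ^ m`, then `v (z - σ z) < v z` (the `p`-power version of
  `S05.LocalMult.galois_close`).
-/
import Mathlib

set_option autoImplicit false

namespace Fermat.Agent.S12P.LocP86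

variable {K : Type*} [Field K] {Γ₀ : Type*} [LinearOrderedCommGroupWithZero Γ₀]
  (v : Valuation K Γ₀)

theorem val_natCast_le_one (n : ℕ) : v (n : K) ≤ 1 := by
  induction n with
  | zero => simp
  | succ n ih =>
    rw [Nat.cast_succ]
    exact (v.map_add _ _).trans (max_le ih (le_of_eq v.map_one))

/-- One step: `u ^ p ≡ 1` implies `u ≡ 1` in residue characteristic `p`. -/
theorem val_sub_one_lt_of_pow_prime {p : ℕ} (hp : p.Prime) (hpv : v (p : K) < 1) {u : K}
    (hu : v (u ^ p - 1) < 1) : v (u - 1) < 1 := by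
  have hup : v (u ^ p) = 1 := by
    have e : u ^ p = 1 + (u ^ p - 1) := by ring
    rw [e]
    exact Valuation.map_one_add_of_lt (v := v) hu
  have hu1 : v u ≤ 1 := by
    by_contra hcon
    have h1 : 1 < v u ^ p := one_lt_pow₀ (not_le.mp hcon) hp.ne_zero
    rw [← map_pow, hup] at h1
    exact lt_irrefl _ h1
  have hd1 : v (u - 1) ≤ 1 := (v.map_sub _ _).trans (max_le hu1 (le_of_eq v.map_one))
  -- the binomial expansion of `((u - 1) + 1) ^ p`
  have hexp : u ^ p - 1 - (u - 1) ^ p =
      ∑ m ∈ Finset.Ico 1 p, (u - 1) ^ m * ((p.choose m : ℕ) : K) := by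
    have h0 : u ^ p = ((u - 1) + 1) ^ p := by ring_nf
    rw [h0, add_pow]
    have hsplit : Finset.range (p + 1) = insert 0 (insert p (Finset.Ico 1 p)) := by
      ext m
      simp only [Finset.mem_range, Finset.mem_insert, Finset.mem_Ico]
      have := hp.one_lt
      omega
    rw [hsplit, Finset.sum_insert, Finset.sum_insert]
    · simp only [one_pow, mul_one, pow_zero, Nat.choose_zero_right, Nat.cast_one,
        Nat.choose_self, Nat.sub_zero, Nat.sub_self]
      ring
    · simp
    · simp only [Finset.mem_insert, Finset.mem_Ico]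
      have := hp.one_lt
      omega
  have hsum : v (u ^ p - 1 - (u - 1) ^ p) ≤ v (p : K) := by
    rw [hexp]
    refine Valuation.map_sum_le v fun m hm => ?_
    rw [Finset.mem_Ico] at hm
    obtain ⟨k, hk⟩ := hp.dvd_choose_self (by omega : m ≠ 0) hm.2
    rw [hk, Nat.cast_mul, map_mul, map_mul, map_pow]
    calc v (u - 1) ^ m * (v (p : K) * v (k : K)) ≤ 1 * (v (p : K) * 1) := by
          gcongr
          · exact pow_le_one₀ zero_le hd1
          · exact val_natCast_le_one v k
      _ = v (p : K) := by rw [one_mul, mul_one]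
  have hdp : v ((u - 1) ^ p) < 1 := by
    have e : (u - 1) ^ p = (u ^ p - 1) - (u ^ p - 1 - (u - 1) ^ p) := by ring
    rw [e]
    exact lt_of_le_of_lt (v.map_sub _ _) (max_lt hu (lt_of_le_of_lt hsum hpv))
  by_contra hcon
  have h1 : 1 ≤ v (u - 1) ^ p := one_le_pow₀ (not_lt.mp hcon)
  rw [← map_pow] at h1
  exact absurd hdp (not_lt.mpr h1)

/-- `u ^ (p ^ j) ≡ 1` implies `u ≡ 1` in residue characteristic `p`. -/
theorem val_sub_one_lt_of_pow {p : ℕ} (hp : p.Prime) (hpv : v (p : K) < 1) (j : ℕ) {u : K}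
    (hu : v (u ^ (p ^ j) - 1) < 1) : v (u - 1) < 1 := by
  induction j generalizing u with
  | zero => simpa using hu
  | succ j ih =>
    apply ih
    apply val_sub_one_lt_of_pow_prime v hp hpv
    rwa [← pow_mul, ← pow_succ]

/-- The `p`-power version of `galois_close`: an element whose valuation has a `p ^ j`-th power
equal to the valuation of a power of a `σ`-fixed element is moved by `σ` by something relatively
small, as soon as `σ` acts trivially on the residue field (of characteristic `p`). -/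
theorem galois_close_pow {F : Type*} [Field F] [Algebra F K] (σ : K ≃ₐ[F] K)
    (hσ : ∀ x : K, v x ≤ 1 → v (σ x - x) < 1) {p : ℕ} (hp : p.Prime) (hpv : v (p : K) < 1)
    {τ : K} (hτ : τ ≠ 0) (hστ : σ τ = τ) (j : ℕ) (m : ℤ) {z : K}
    (hz : v z ^ (p ^ j) = v τ ^ m) : v (z - σ z) < v z := by
  have hvτ : v τ ≠ 0 := (Valuation.ne_zero_iff v).mpr hτ
  have hτm : τ ^ m ≠ 0 := zpow_ne_zero m hτ
  have hvτm : v (τ ^ m) = v τ ^ m := map_zpow₀ v τ m
  have hq0 : p ^ j ≠ 0 := pow_ne_zero _ hp.ne_zero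
  have hz0 : z ≠ 0 := by
    rintro rfl
    rw [map_zero, zero_pow hq0] at hz
    exact zpow_ne_zero m hvτ hz.symm
  have hvz : v z ≠ 0 := (Valuation.ne_zero_iff v).mpr hz0
  have hzq : z ^ (p ^ j) ≠ 0 := pow_ne_zero _ hz0
  obtain ⟨w, hw⟩ : ∃ w, w = z ^ (p ^ j) / τ ^ m := ⟨_, rfl⟩
  have hvw : v w = 1 := by
    rw [hw, map_div₀, hvτm, map_pow, hz, div_self (zpow_ne_zero m hvτ)]
  have hw0 : w ≠ 0 := by
    rintro rfl
    rw [map_zero] at hvw
    exact zero_ne_one hvw
  have hσw : σ w = (σ z) ^ (p ^ j) / τ ^ m := by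
    rw [hw, map_div₀, map_pow, map_zpow₀, hστ]
  have h1 : v (σ w - w) < 1 := hσ w hvw.le
  -- `u = σ z / z`
  have hu : v ((σ z / z) ^ (p ^ j) - 1) < 1 := by
    have e : (σ z / z) ^ (p ^ j) - 1 = (σ w - w) / w := by
      rw [hσw, hw, div_pow]
      field_simp
    rw [e, map_div₀, hvw, div_one]
    exact h1
  have h2 := val_sub_one_lt_of_pow v hp hpv j hu
  have e2 : z - σ z = -((σ z / z - 1) * z) := by
    field_simp
    ring
  rw [e2, Valuation.map_neg, map_mul]
  calc v (σ z / z - 1) * v z < 1 * v z :=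
        mul_lt_mul_of_pos_right h2 (zero_lt_iff.mpr hvz)
    _ = v z := one_mul _

end Fermat.Agent.S12P.LocP86
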