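/-
S12 project, row S12-LOCP (helper86), file 2: on a Legendre-type curve with multiplicative
reduction in residue characteristic `p` (`a₄ = t ^ p`), `P - σ P` lies in the kernel of reduction
for every `p`-POWER torsion point `P` and every `σ` acting trivially on the residue field.

Main has this for `p`-torsion (`S13.LocP.sub_inE1_of_mult`, through `S05.torsion_val` and
`S05.LocalMult.galois_close`); the two inputs are generalised here:

* `torsion_val_pow` : for `p ^ (j+1) • P = 0` and `v x < 1`: `v a₄ < v x` and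
  `v x ^ (p ^ j)` is a power of `v t`;
* `sub_inE1_of_mult_pow` : the statement, with `galois_close_pow`.
-/
import Fermat.Agent.S13.LocP.SubE1
import Fermat.Agent.S12P.LocP86.PowClose

set_option autoImplicit false

namespace Fermat.Agent.S12P.LocP86

open WeierstrassCurve WeierstrassCurve.Affine
open Fermat.Agent.S05 Fermat.Agent.S13.LocP

section Val

variable {K : Type*} [Field K] {Γ₀ : Type*} [LinearOrderedCommGroupWithZero Γ₀]
  (v : Valuation K Γ₀) {W : Affine K} [DecidableEq K]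

/-- A `p ^ (j+1)`-torsion point (`p` odd) whose `x`-coordinate has `v x < 1`, on a curve with
`a₄ = t ^ p`: then `v a₄ < v x` and `v x ^ (p ^ j)` is a power of `v t`. -/
theorem torsion_val_pow (hW : IsLeg W) (ha : v W.a₂ = 1) (h2 : v 2 = 1) (hb : v W.a₄ < 1)
    (hb0 : W.a₄ ≠ 0) {β : K} (hβ : β ^ 2 = W.a₂) {p : ℕ} (hp : p.Prime) (hp2 : p ≠ 2)
    {t : K} (ht : W.a₄ = t ^ p) (j : ℕ) {x y : K} (h : W.Nonsingular x y)
    (hP : p ^ (j + 1) • Point.some x y h = 0) (hx : v x < 1) :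
    v W.a₄ < v x ∧ ∃ m : ℤ, v x ^ (p ^ j) = v t ^ m := by
  have hc : v W.a₄ ≠ 0 := (Valuation.ne_zero_iff v).mpr hb0
  have hvb : v W.a₄ = v t ^ p := by rw [ht, map_pow]
  have ht0 : v t ≠ 0 := by
    intro h0
    rw [hvb, h0, zero_pow hp.ne_zero] at hc
    exact hc rfl
  have ht1 : v t < 1 := by
    by_contra hcon
    have h1 : 1 ≤ v t ^ p := one_le_pow₀ (not_lt.mp hcon)
    rw [← hvb] at h1
    exact absurd hb (not_lt.mpr h1)
  have hinj : ∀ n : ℤ, v t ^ n = 1 → n = 0 := by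
    intro n hn
    exact (zpow_eq_one_iff_right₀ zero_le ht1.ne).mp hn
  obtain ⟨k, hk⟩ := cls_nsmul v hW ha h2 hb hb0 hβ (p ^ (j + 1)) (Point.some x y h)
  rw [hP] at hk
  have hcls0 : cls v β (0 : W.Point) = 1 := rfl
  rw [hcls0, hvb] at hk
  -- `(cls ^ (p ^ j) * v t ^ (2 k)) ^ p = 1`
  have hk' : (cls v β (Point.some x y h) ^ (p ^ j) * v t ^ (2 * k)) ^ p = 1 := by
    rw [mul_pow, ← pow_mul, ← pow_succ, ← zpow_natCast (v t ^ (2 * k)) p, ← zpow_mul,
      mul_comm (2 * k) (p : ℤ), zpow_mul, zpow_natCast]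
    exact hk.symm
  have hcl : cls v β (Point.some x y h) ^ (p ^ j) * v t ^ (2 * k) = 1 :=
    (pow_eq_one_iff.mp hk').resolve_right hp.ne_zero
  have hcl' : cls v β (Point.some x y h) ^ (p ^ j) = v t ^ (-(2 * k)) := by
    rw [zpow_neg]
    exact eq_inv_of_mul_eq_one_left hcl
  have hunf : cls v β (Point.some x y h) =
      if 1 ≤ v x then 1 else if v x ≤ v W.a₄ then v W.a₄
        else if v (y - β * x) < v x then v x else v W.a₄ ^ 2 / v x := rfl
  rw [hunf, if_neg (not_le.mpr hx)] at hcl'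
  by_cases hM : v x ≤ v W.a₄
  · exfalso
    rw [if_pos hM, hvb, ← pow_mul, ← pow_succ'] at hcl'
    have h1 : v t ^ (((p ^ (j + 1) : ℕ) : ℤ) + 2 * k) = 1 := by
      rw [zpow_add₀ ht0, zpow_natCast, hcl', ← zpow_add₀ ht0, neg_add_cancel, zpow_zero]
    have h3 := hinj _ h1
    have h2' : (2 : ℤ) ∣ ((p ^ (j + 1) : ℕ) : ℤ) := ⟨-k, by omega⟩
    have h4 : 2 ∣ p ^ (j + 1) := Int.natCast_dvd_natCast.mp h2'
    have h5 : 2 ∣ p := Nat.Prime.dvd_of_dvd_pow Nat.prime_two h4
    exact hp2 ((Nat.prime_dvd_prime_iff_eq Nat.prime_two hp).mp h5).symm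
  · rw [if_neg hM] at hcl'
    refine ⟨not_le.mp hM, ?_⟩
    by_cases hS : v (y - β * x) < v x
    · rw [if_pos hS] at hcl'
      exact ⟨_, hcl'⟩
    · rw [if_neg hS] at hcl'
      have hvx0 : v x ≠ 0 := ne_of_gt (lt_of_le_of_lt zero_le (not_le.mp hM))
      rw [div_pow, div_eq_iff (pow_ne_zero _ hvx0)] at hcl'
      refine ⟨2 * ((p ^ (j + 1) : ℕ) : ℤ) + 2 * k, ?_⟩
      have e1 : (v W.a₄ ^ 2) ^ (p ^ j) = v t ^ (2 * ((p ^ (j + 1) : ℕ) : ℤ)) := by
        rw [hvb, ← pow_mul, ← pow_mul, mul_comm 2 ((p ^ (j + 1) : ℕ) : ℤ), zpow_mul,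
          zpow_natCast, zpow_ofNat, ← pow_mul]
        congr 1
        rw [pow_succ]
        ring
      rw [zpow_add₀ ht0, ← e1, hcl', mul_right_comm, ← zpow_add₀ ht0, neg_add_cancel, zpow_zero,
        one_mul]

end Val

variable {F K : Type*} [Field F] [Field K] [Algebra F K] [DecidableEq K] {Γ₀ : Type*}
  [LinearOrderedCommGroupWithZero Γ₀] (v : Valuation K Γ₀)

/-- Multiplicative reduction in residue characteristic `p`: `P - σ P` lies in the kernel of
reduction, for every `p ^ (j+1)`-torsion point `P` (`p` an odd prime, `a₄` a `p`-th power). -/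
theorem sub_inE1_of_mult_pow (W₀ : Affine F) (hW : IsLeg W₀) (σ : K ≃ₐ[F] K)
    (hσ : ∀ x : K, v x ≤ 1 → v (σ x - x) < 1)
    (h2 : v 2 = 1) (ha : v (algebraMap F K W₀.a₂) = 1)
    (hb : v (algebraMap F K W₀.a₄) < 1) (hb0 : W₀.a₄ ≠ 0)
    {p : ℕ} (hp : p.Prime) (hp2 : p ≠ 2) (hpv : v (p : K) < 1)
    {t : F} (ht : W₀.a₄ = t ^ p) {β : K} (hβ : β ^ 2 = algebraMap F K W₀.a₂)
    (j : ℕ) (P : (W₀⁄K).Point) (hP : p ^ (j + 1) • P = 0) :
    InE1 v (P - Point.map (W' := W₀) σ.toAlgHom P) := by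
  have hWK : IsLeg (W₀⁄K) := LocalMult.isLeg_baseChange W₀ hW
  have ha' : v (W₀⁄K).a₂ = 1 := ha
  have hb' : v (W₀⁄K).a₄ < 1 := hb
  have hb0' : (W₀⁄K).a₄ ≠ 0 := by
    show algebraMap F K W₀.a₄ ≠ 0
    exact (map_ne_zero _).mpr hb0
  have hβ' : β ^ 2 = (W₀⁄K).a₂ := hβ
  rcases P with _ | ⟨x, y, h⟩
  · exact trivial
  · have hE : LegEq (W₀⁄K).a₂ (W₀⁄K).a₄ x y := ((hWK.nonsingular_iff x y).mp h).1
    have h' : (W₀⁄K).Nonsingular (σ x) (σ y) :=
      (W₀.baseChange_nonsingular σ.toAlgHom.injective ..).mpr h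
    show InE1 v (Point.some x y h - Point.some (σ x) (σ y) h')
    rcases lt_trichotomy (v x) 1 with hx | hx | hx
    · -- `v x < 1`
      have htK : (W₀⁄K).a₄ = (algebraMap F K t) ^ p := by
        show algebraMap F K W₀.a₄ = _
        rw [ht, map_pow]
      obtain ⟨hbx, m, hm⟩ :=
        torsion_val_pow v hWK ha' h2 hb' hb0' hβ' hp hp2 htK j h hP hx
      have hτ : algebraMap F K t ≠ 0 := by
        intro h0
        apply hb0'
        rw [htK, h0, zero_pow hp.ne_zero]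
      have hστ : σ (algebraMap F K t) = algebraMap F K t := σ.commutes t
      have hyx : v y = v x := LocalMult.val_y_eq_val_x v ha' hbx hx hE
      have hx' : v (x - σ x) < v x := galois_close_pow v σ hσ hp hpv hτ hστ j m hm
      have hy' : v (y - σ y) < v y :=
        galois_close_pow v σ hσ hp hpv hτ hστ j m (by rw [hyx]; exact hm)
      exact sub_inE1_of_rel_close v hWK ha' h2 hb' h h' hx hbx hx' hy'
    · -- `v x = 1`
      have hy : v y ≤ 1 := LocalMult.val_y_le_one v ha'.le hb'.le hx.le hE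
      have hns := LocalMult.nonsing_red v h2 ha' hb' hx hE
      refine sub_inE1_of_same_red v hWK ha'.le hb'.le h h' hx.le hy ?_ ?_ hns
      · rw [Valuation.map_sub_swap]; exact hσ x hx.le
      · rw [Valuation.map_sub_swap]; exact hσ y hy
    · -- `1 < v x`: both `P` and `σ P` are in the kernel of reduction
      have hin : InE1 v (Point.some x y h) := hx
      have hin' : InE1 v (Point.some (σ x) (σ y) h') := one_lt_map_of_one_lt v σ hσ hx
      rw [sub_eq_add_neg]
      exact inE1_add v hWK ha'.le hb'.le hin (inE1_neg v hin')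

end Fermat.Agent.S12P.LocP86
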