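/-
S12 project, row S12-LOCP (helper86), file 3: the Legendre model of the Frey curve at `p`, with
the `p`-POWER torsion version of main's `S13.LocP.frey_leg_model`:
`Q - σ Q` lies in the kernel of reduction for every inertia element `σ` above `p` and every
point `Q` killed by a power of `p`.
-/
import Fermat.Agent.S13.LocP.Frey
import Fermat.Agent.S12P.LocP86.SubE1Pow

set_option autoImplicit false

namespace Fermat.Agent.S12P.LocP86

open WeierstrassCurve WeierstrassCurve.Affine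
open Fermat.Agent.S05 Fermat.Agent.S13.LocP

local notation "Qbar" => AlgebraicClosure ℚ

/-- Multiplicative reduction at `p`, integer Legendre model, `p`-power torsion. -/
theorem sub_inE1_int_mult_pow {Wℤ : WeierstrassCurve ℤ}
    (hW : IsLeg (Wℤ.map (Int.castRingHom ℚ) : Affine ℚ)) {p : ℕ}
    (hp : p.Prime) (hp2 : p ≠ 2) (h₂ : ¬ (p : ℤ) ∣ Wℤ.a₂) (h₄ : (p : ℤ) ∣ Wℤ.a₄)
    (h₄0 : Wℤ.a₄ ≠ 0) {t : ℤ} (ht : Wℤ.a₄ = t ^ p)
    (A : ValuationSubring Qbar) (hA : A.LiesOverPrime p) (σ : Qbar ≃ₐ[ℚ] Qbar)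
    (hσ : σ ∈ A.inertiaSubgroupIn ℚ) (j : ℕ)
    (Q : ((Wℤ.map (Int.castRingHom ℚ) : Affine ℚ)⁄Qbar).Point) (hQ : p ^ (j + 1) • Q = 0) :
    InE1 A.valuation
      (Q - Point.map (W' := (Wℤ.map (Int.castRingHom ℚ) : Affine ℚ)) σ.toAlgHom Q) := by
  have hpA : A.valuation ((p : ℕ) : Qbar) < 1 := by
    have : ((p : ℕ) : Qbar) ∈ A.nonunits := hA
    rwa [ValuationSubring.mem_nonunits_iff] at this
  have hσ' : ∀ x : Qbar, A.valuation x ≤ 1 → A.valuation (σ x - x) < 1 :=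
    fun x hx => inertia_spec A σ hσ x hx
  have h2 := val_two_eq_one hp hp2 A hpA
  have ha : A.valuation (algebraMap ℚ Qbar (Wℤ.map (Int.castRingHom ℚ) : Affine ℚ).a₂) = 1 := by
    rw [algebraMap_map_a₂]
    exact val_intCast_eq_one A hp hpA h₂
  have hb : A.valuation (algebraMap ℚ Qbar (Wℤ.map (Int.castRingHom ℚ) : Affine ℚ).a₄) < 1 := by
    rw [algebraMap_map_a₄]
    exact val_intCast_lt_one A hpA h₄
  have hb0 : (Wℤ.map (Int.castRingHom ℚ) : Affine ℚ).a₄ ≠ 0 := by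
    show Int.castRingHom ℚ Wℤ.a₄ ≠ 0
    rw [eq_intCast]
    exact Int.cast_ne_zero.mpr h₄0
  have ht' : (Wℤ.map (Int.castRingHom ℚ) : Affine ℚ).a₄ = ((t : ℤ) : ℚ) ^ p := by
    show Int.castRingHom ℚ Wℤ.a₄ = _
    rw [eq_intCast, ht, Int.cast_pow]
  obtain ⟨β, hβ⟩ := IsAlgClosed.exists_pow_nat_eq
    (algebraMap ℚ Qbar (Wℤ.map (Int.castRingHom ℚ) : Affine ℚ).a₂) (n := 2) (by norm_num)
  exact sub_inE1_of_mult_pow A.valuation _ hW σ hσ' h2 ha hb hb0 hp hp2 hpA ht' hβ j Q hQ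

/-- A Legendre model of the Frey curve with integer coefficients, for which `Q - σ Q` lies in the
kernel of reduction for all inertia elements `σ` above `p` and all points `Q` killed by a power
of `p`. -/
theorem frey_leg_model_pow (P : FreyPackage) :
    ∃ (Wℤ : WeierstrassCurve ℤ) (r₀ : ℚ),
      IsLeg (Wℤ.map (Int.castRingHom ℚ) : Affine ℚ) ∧
      (Wℤ.map (Int.castRingHom ℚ) : Affine ℚ).a₂ = 4 * P.freyCurve.a₂ + 1 - 3 * r₀ ∧
      (Wℤ.map (Int.castRingHom ℚ) : Affine ℚ).a₄ =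
        16 * P.freyCurve.a₄ - 2 * r₀ * (4 * P.freyCurve.a₂ + 1) + 3 * r₀ ^ 2 ∧
      r₀ ^ 3 - (4 * P.freyCurve.a₂ + 1) * r₀ ^ 2 + 16 * P.freyCurve.a₄ * r₀ = 0 ∧
      ∀ A : ValuationSubring Qbar, A.LiesOverPrime P.p → ∀ σ ∈ A.inertiaSubgroupIn ℚ,
        ∀ (j : ℕ) (Q : ((Wℤ.map (Int.castRingHom ℚ) : Affine ℚ)⁄Qbar).Point),
          P.p ^ (j + 1) • Q = 0 →
          InE1 A.valuation
            (Q - Point.map (W' := (Wℤ.map (Int.castRingHom ℚ) : Affine ℚ)) σ.toAlgHom Q) := by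
  have hp := P.pp
  have hp2 : P.p ≠ 2 := by have := P.hp5; omega
  have hqi : Prime (P.p : ℤ) := Nat.prime_iff_prime_int.mp hp
  have hab : (P.p : ℤ) ∣ P.a → (P.p : ℤ) ∣ P.b → False := fun h1 h2 =>
    hqi.not_dvd_one (P.hgcdab ▸ dvd_gcd h1 h2)
  have hac : (P.p : ℤ) ∣ P.a → (P.p : ℤ) ∣ P.c → False := fun h1 h2 =>
    hqi.not_dvd_one (P.hgcdac ▸ dvd_gcd h1 h2)
  have hFLT := P.hFLT
  have hFLTQ : (P.a : ℚ) ^ P.p + (P.b : ℚ) ^ P.p = (P.c : ℚ) ^ P.p := by exact_mod_cast hFLT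
  have hE₂ : P.freyCurve.a₂ = ((P.b : ℚ) ^ P.p - 1 - (P.a : ℚ) ^ P.p) / 4 := rfl
  have hE₄ : P.freyCurve.a₄ = -((P.a : ℚ) ^ P.p) * ((P.b : ℚ) ^ P.p) / 16 := rfl
  by_cases hc : (P.p : ℤ) ∣ P.c
  · -- multiplicative reduction, `p ∣ c`
    have hna : ¬ (P.p : ℤ) ∣ P.a := fun h => hac h hc
    refine ⟨legC P, -((P.a : ℚ) ^ P.p), isLeg_legC P, ?_, ?_, ?_, ?_⟩
    · show Int.castRingHom ℚ (P.a ^ P.p + P.c ^ P.p) = _
      rw [hE₂, eq_intCast]; push_cast; rw [← hFLTQ]; ring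
    · show Int.castRingHom ℚ (P.a ^ P.p * P.c ^ P.p) = _
      rw [hE₂, hE₄, eq_intCast]; push_cast; rw [← hFLTQ]; ring
    · rw [hE₂, hE₄]; ring
    · intro A hA σ hσ j Q hQ
      refine sub_inE1_int_mult_pow (isLeg_legC P) hp hp2 ?_ ?_ ?_ (t := P.a * P.c) ?_ A hA σ hσ
        j Q hQ
      · show ¬ (P.p : ℤ) ∣ P.a ^ P.p + P.c ^ P.p
        intro h
        have h1 : (P.p : ℤ) ∣ P.c ^ P.p := dvd_pow hc P.hp0
        have h2 : (P.p : ℤ) ∣ P.a ^ P.p := (dvd_add_left h1).mp h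
        exact hna (hqi.dvd_of_dvd_pow h2)
      · show (P.p : ℤ) ∣ P.a ^ P.p * P.c ^ P.p
        exact Dvd.dvd.mul_left (dvd_pow hc P.hp0) _
      · show P.a ^ P.p * P.c ^ P.p ≠ 0
        exact mul_ne_zero (pow_ne_zero _ P.ha0) (pow_ne_zero _ P.hc0)
      · show P.a ^ P.p * P.c ^ P.p = (P.a * P.c) ^ P.p
        exact (mul_pow _ _ _).symm
  · refine ⟨legAB P, 0, isLeg_legAB P, ?_, ?_, ?_, ?_⟩
    · show Int.castRingHom ℚ (P.b ^ P.p - P.a ^ P.p) = _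
      rw [hE₂, eq_intCast]; push_cast; ring
    · show Int.castRingHom ℚ (-(P.a ^ P.p * P.b ^ P.p)) = _
      rw [hE₂, hE₄, eq_intCast]; push_cast; ring
    · ring
    · intro A hA σ hσ j Q hQ
      by_cases hab' : (P.p : ℤ) ∣ P.a * P.b
      · -- multiplicative reduction, `p ∣ a b`
        refine sub_inE1_int_mult_pow (isLeg_legAB P) hp hp2 ?_ ?_ ?_ (t := -(P.a * P.b)) ?_
          A hA σ hσ j Q hQ
        · show ¬ (P.p : ℤ) ∣ P.b ^ P.p - P.a ^ P.p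
          intro h
          rcases hqi.dvd_or_dvd hab' with h1 | h1
          · have h2 : (P.p : ℤ) ∣ P.a ^ P.p := dvd_pow h1 P.hp0
            have h3 : (P.p : ℤ) ∣ P.b ^ P.p := (dvd_sub_left h2).mp h
            exact hab h1 (hqi.dvd_of_dvd_pow h3)
          · have h2 : (P.p : ℤ) ∣ P.b ^ P.p := dvd_pow h1 P.hp0
            have h3 : (P.p : ℤ) ∣ P.a ^ P.p := (dvd_sub_right h2).mp h
            exact hab (hqi.dvd_of_dvd_pow h3) h1
        · show (P.p : ℤ) ∣ -(P.a ^ P.p * P.b ^ P.p)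
          rw [dvd_neg, ← mul_pow]
          exact dvd_pow hab' P.hp0
        · show -(P.a ^ P.p * P.b ^ P.p) ≠ 0
          exact neg_ne_zero.mpr (mul_ne_zero (pow_ne_zero _ P.ha0) (pow_ne_zero _ P.hb0))
        · show -(P.a ^ P.p * P.b ^ P.p) = (-(P.a * P.b)) ^ P.p
          rw [P.hp_odd.neg_pow, mul_pow]
      · -- good reduction
        have hna : ¬ (P.p : ℤ) ∣ P.a := fun h => hab' (Dvd.dvd.mul_right h _)
        have hnb : ¬ (P.p : ℤ) ∣ P.b := fun h => hab' (Dvd.dvd.mul_left h _)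
        refine sub_inE1_int_good (isLeg_legAB P) hp hp2 ?_ A hA σ hσ Q
        show ¬ (P.p : ℤ) ∣ -(P.a ^ P.p * P.b ^ P.p) *
          ((P.b ^ P.p - P.a ^ P.p) ^ 2 - 4 * -(P.a ^ P.p * P.b ^ P.p))
        have e : -(P.a ^ P.p * P.b ^ P.p) *
            ((P.b ^ P.p - P.a ^ P.p) ^ 2 - 4 * -(P.a ^ P.p * P.b ^ P.p)) =
            -(P.a ^ P.p * P.b ^ P.p * (P.c ^ P.p) ^ 2) := by
          rw [← hFLT]; ring
        rw [e, dvd_neg]
        intro h
        rcases hqi.dvd_or_dvd h with h1 | h1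
        · rcases hqi.dvd_or_dvd h1 with h2 | h2
          · exact hna (hqi.dvd_of_dvd_pow h2)
          · exact hnb (hqi.dvd_of_dvd_pow h2)
        · exact hc (hqi.dvd_of_dvd_pow (hqi.dvd_of_dvd_pow h1))

end Fermat.Agent.S12P.LocP86
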