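/-
S12 project, row S12-LOCP (helper86), top file: **`locP`**, the literal of
`Fermat.Agent.S12P.LocP` (`S12P/Interfaces20.lean`, helper20), stated without importing the
interface file (the types are spelled out; `Pt W = ((W.map (Int.castRingHom ℚ))⁄ℚ̄).Point`).

The Frey curve at `p`, for a cofixed line `N ⊂ E[p]` (order `p`, Galois-stable, `σx - x ∈ N` on
`E[p]`): for every place `A ∣ p` there is a subgroup `E1` of `E(ℚ̄)` ("kernel of reduction" of the
integral Legendre model), stable under the decomposition group of `A`, containing `σx - x` for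
every inertia element `σ` and every `p`-POWER torsion point `x`, meeting `E[p]` inside `N`; and
some inertia element at `A` moves `N`.

Proof: main's `S13/LocP` (Legendre model, kernel of reduction `S05.E1.E1sub`, Gauss-lemma count
`mem_of_inE1` / `eq_zero_of_inE1`), the `p`-power torsion version `frey_leg_model_pow` of
`frey_leg_model` (this directory), and `exists_inertia_moving` (`det = cyclo`, ramified at `p`).
-/
import Mathlib
import Fermat.Agent.Lib.Frey.Semistable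
import Fermat.Agent.Lib.ECTors.Main
import Fermat.Agent.Lib.ECBiquad.Main
import Fermat.Agent.EC.FrobFixed.Val
import Fermat.Agent.S12P.LocP86.FreyPow
import Fermat.Agent.S12P.LocP86.Cyclo

set_option autoImplicit false

namespace Fermat.Agent.S12P.LocP86

open WeierstrassCurve WeierstrassCurve.Affine Polynomial
open Fermat.Agent.S05 Fermat.Agent.S13.LocP Fermat.Agent.Lib.ECTors

local notation "Qbar" => AlgebraicClosure ℚ

/-- The decomposition group of `A` preserves the kernel of reduction. -/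
theorem inE1_map_of_decomp {W₀ : Affine ℚ} (A : ValuationSubring Qbar) (σ : Qbar ≃ₐ[ℚ] Qbar)
    (hσ : σ ∈ A.decompositionSubgroup ℚ) (Q : (W₀⁄Qbar).Point) (hQ : InE1 A.valuation Q) :
    InE1 A.valuation (Point.map (W' := W₀) σ.toAlgHom Q) := by
  rcases Q with _ | ⟨x, y, h⟩
  · exact trivial
  · show 1 < A.valuation (σ x)
    by_contra hcon
    have h1 : A.valuation (σ x) ≤ 1 := not_lt.mp hcon
    have hinv : σ⁻¹ ∈ A.decompositionSubgroup ℚ := (A.decompositionSubgroup ℚ).inv_mem hσ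
    have h2 := Fermat.Agent.EC.FrobFixed.decomp_val_le_one A σ⁻¹ hinv h1
    have h3 : σ⁻¹ (σ x) = x := σ.symm_apply_apply x
    rw [h3] at h2
    have hQ' : 1 < A.valuation x := hQ
    exact absurd hQ' (not_lt.mpr h2)

/-- **(LOCP)** — the literal of `Fermat.Agent.S12P.LocP`. -/
theorem locP (P : FreyPackage)
    (N : AddSubgroup ((P.freyCurveInt.map (Int.castRingHom ℚ))⁄Qbar).Point)
    (hNcard : Nat.card N = P.p) (hNp : ∀ x ∈ N, P.p • x = 0)
    (hNstab : ∀ σ : Qbar ≃ₐ[ℚ] Qbar, ∀ x ∈ N, σ • x ∈ N)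
    (hcof : ∀ (σ : Qbar ≃ₐ[ℚ] Qbar) (x : ((P.freyCurveInt.map (Int.castRingHom ℚ))⁄Qbar).Point),
      P.p • x = 0 → σ • x - x ∈ N)
    (A : ValuationSubring Qbar) (hA : A.LiesOverPrime P.p) :
    ∃ E1 : AddSubgroup ((P.freyCurveInt.map (Int.castRingHom ℚ))⁄Qbar).Point,
      (∀ σ ∈ A.decompositionSubgroup ℚ, ∀ x ∈ E1, σ • x ∈ E1) ∧
      (∀ σ ∈ A.inertiaSubgroupIn ℚ,
        ∀ (x : ((P.freyCurveInt.map (Int.castRingHom ℚ))⁄Qbar).Point) (k : ℕ),
          P.p ^ k • x = 0 → σ • x - x ∈ E1) ∧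
      (∀ x ∈ E1, P.p • x = 0 → x ∈ N) ∧
      ∃ σ ∈ A.inertiaSubgroupIn ℚ, ∃ x ∈ N, σ • x ≠ x := by
  classical
  have hp := P.pp
  have hp2 : P.p ≠ 2 := by have := P.hp5; omega
  have : Fact P.p.Prime := ⟨hp⟩
  have hodd : ¬ Even P.p := Nat.not_even_iff_odd.mpr P.hp_odd
  have hpK : ((P.p : ℕ) : Qbar) ≠ 0 := Nat.cast_ne_zero.mpr P.hp0
  have hpA : A.valuation ((P.p : ℕ) : Qbar) < 1 := by
    have : ((P.p : ℕ) : Qbar) ∈ A.nonunits := hA
    rwa [ValuationSubring.mem_nonunits_iff] at this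
  have hΔE := Fermat.Agent.Frey.freyCurveInt_Δ_ne_zero P
  obtain ⟨Wℤ, r₀, hW, h₂, h₄, h₆, hsub⟩ := frey_leg_model_pow P
  have hmap : P.freyCurveInt.map (Int.castRingHom ℚ) = P.freyCurve :=
    Fermat.Agent.Frey.freyCurveInt_map P
  obtain ⟨φ, hφinj, hφσ⟩ := exists_equivariant_transfer (K := Qbar)
    (P.freyCurveInt.map (Int.castRingHom ℚ) : Affine ℚ)
    (Wℤ.map (Int.castRingHom ℚ) : Affine ℚ) r₀ (by rw [hmap]; rfl) (by rw [hmap]; rfl)
    (by rw [hmap]; rfl) hW (by rw [hmap]; exact h₂) (by rw [hmap]; exact h₄)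
    (by rw [hmap]; exact h₆) two_ne_zero
  have hWK : IsLeg ((Wℤ.map (Int.castRingHom ℚ) : Affine ℚ)⁄Qbar) :=
    LocalMult.isLeg_baseChange _ hW
  have ha := val_a₂_le_one A Wℤ
  have hb := val_a₄_le_one A Wℤ
  have hmemE1₀ : ∀ Q : ((Wℤ.map (Int.castRingHom ℚ) : Affine ℚ)⁄Qbar).Point,
      Q ∈ E1.E1sub A.valuation hWK ha hb ↔ InE1 A.valuation Q :=
    fun Q => E1.mem_E1sub A.valuation hWK ha hb
  -- equivariance of the transfer, for the Prelude's action
  have hφσ' : ∀ (σ : Qbar ≃ₐ[ℚ] Qbar)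
      (x : ((P.freyCurveInt.map (Int.castRingHom ℚ))⁄Qbar).Point),
      φ (σ • x) = Point.map (W' := (Wℤ.map (Int.castRingHom ℚ) : Affine ℚ)) σ.toAlgHom (φ x) :=
    fun σ x => hφσ σ x
  -- inertia: `σ x - x` is in the kernel of reduction for `p`-power torsion `x`
  have hin : ∀ σ ∈ A.inertiaSubgroupIn ℚ,
      ∀ (x : ((P.freyCurveInt.map (Int.castRingHom ℚ))⁄Qbar).Point) (k : ℕ),
        P.p ^ k • x = 0 → φ (σ • x - x) ∈ E1.E1sub A.valuation hWK ha hb := by
    intro σ hσ x k hx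
    rcases k with _ | j
    · rw [pow_zero, one_smul] at hx
      subst hx
      have h0 : φ (σ • (0 : ((P.freyCurveInt.map (Int.castRingHom ℚ))⁄Qbar).Point) - 0) = 0 := by
        rw [sub_zero, hφσ', map_zero]
        rfl
      rw [h0]
      exact (E1.E1sub A.valuation hWK ha hb).zero_mem
    · have h1 := hsub A hA σ hσ j (φ x) (by rw [← map_nsmul, hx, map_zero])
      rw [map_sub, hφσ']
      have h2 := (E1.E1sub A.valuation hWK ha hb).neg_mem ((hmemE1₀ _).mpr h1)
      rwa [neg_sub] at h2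
  -- some inertia element moves `N`
  obtain ⟨σ₀, hσ₀, x₀, hx₀N, hx₀⟩ :=
    exists_inertia_moving P.freyCurveInt hΔE hp2 N hcof A hA
  refine ⟨(E1.E1sub A.valuation hWK ha hb).comap φ, ?_, ?_, ?_, ⟨σ₀, hσ₀, x₀, hx₀N, hx₀⟩⟩
  · intro σ hσ x hx
    rw [AddSubgroup.mem_comap] at hx ⊢
    rw [hφσ', hmemE1₀]
    exact inE1_map_of_decomp A σ hσ _ ((hmemE1₀ _).mp hx)
  · intro σ hσ x k hx
    exact hin σ hσ x k hx
  · intro x hx hxp
    rw [AddSubgroup.mem_comap] at hx
    -- cardinalities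
    have hcardE := Fermat.Agent.Lib.ECBiquad.card_torsionBy_int P.freyCurveInt hΔE P.hp0
    have hcardV₀ := card_torsionBy_le_of_odd
      ((Wℤ.map (Int.castRingHom ℚ) : Affine ℚ)⁄Qbar) hodd hpK
    have hV₀card : Nat.card (Submodule.torsionBy ℤ
        ((Wℤ.map (Int.castRingHom ℚ) : Affine ℚ)⁄Qbar).Point (P.p : ℤ)) = P.p ^ 2 := by
      have hfinV₀ := finite_torsionBy_of_odd
        ((Wℤ.map (Int.castRingHom ℚ) : Affine ℚ)⁄Qbar) hodd hpK
      apply le_antisymm hcardV₀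
      rw [← hcardE]
      let ψ : Submodule.torsionBy ℤ
          ((P.freyCurveInt.map (Int.castRingHom ℚ))⁄Qbar).Point (P.p : ℤ) →
          Submodule.torsionBy ℤ
            ((Wℤ.map (Int.castRingHom ℚ) : Affine ℚ)⁄Qbar).Point (P.p : ℤ) :=
        fun x => ⟨φ x.1, by
          rw [Submodule.mem_torsionBy_iff, ← map_zsmul,
            (Submodule.mem_torsionBy_iff _ _).mp x.2, map_zero]⟩
      exact Nat.card_le_card_of_injective ψ
        (fun x y hxy => Subtype.ext (hφinj (congrArg Subtype.val hxy)))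
    obtain ⟨s, hs, hpre⟩ : ∃ s : Finset Qbar,
        (∀ x, x ∈ s ↔ ∃ y h, (P.p : ℤ) •
          Point.some (W' := (Wℤ.map (Int.castRingHom ℚ) : Affine ℚ)⁄Qbar) x y h = 0) ∧
        ((Wℤ.map (Int.castRingHom ℚ) : Affine ℚ)⁄Qbar).preΨ (P.p : ℤ) =
          C ((P.p : ℕ) : Qbar) * ∏ x ∈ s, (X - C x) :=
      ⟨Card.torsionXs _ P.p, Card.mem_torsionXs (torsionCriterion _) hodd hpK,
        (preΨ_eq_prod_of_card _ hodd hpK hV₀card).2⟩
    -- the image of `N` in the Legendre model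
    have hmemN₀ : ∀ x, φ x ∈ N.map φ ↔ x ∈ N := by
      intro x
      constructor
      · rintro ⟨y, hy, hxy⟩
        rw [← hφinj hxy]
        exact hy
      · intro hx
        exact ⟨x, hx, rfl⟩
    have hNp₀ : ∀ R ∈ N.map φ, (P.p : ℤ) • R = 0 := by
      rintro R ⟨y, hy, rfl⟩
      rw [← map_zsmul, natCast_zsmul, hNp y hy, map_zero]
    have hcyc : ∀ Q ∈ N.map φ, Q ≠ 0 → ∀ R ∈ N.map φ, ∃ k : ℤ, R = k • Q := by
      rintro Q ⟨x, hx, rfl⟩ hQ0 R ⟨y, hy, rfl⟩
      have hx0 : (⟨x, hx⟩ : N) ≠ 0 := by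
        intro h0
        apply hQ0
        have : x = 0 := congrArg Subtype.val h0
        rw [this, map_zero]
      obtain ⟨k, hk⟩ := exists_zsmul_of_natCard_prime P.pp hNcard hx0 ⟨y, hy⟩
      refine ⟨k, ?_⟩
      have : y = k • x := congrArg Subtype.val hk
      rw [this, map_zsmul]
    have hstab₀ : ∀ σ : Qbar ≃ₐ[ℚ] Qbar, ∀ R ∈ N.map φ,
        Point.map (W' := (Wℤ.map (Int.castRingHom ℚ) : Affine ℚ)) σ.toAlgHom R ∈ N.map φ := by
      rintro σ R ⟨y, hy, rfl⟩
      rw [← hφσ']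
      exact (hmemN₀ _).mpr (hNstab σ y hy)
    -- the finite set of `x`-coordinates of `N₀ ∖ 0`
    have hfin : {x : Qbar | ∃ y h, Point.some
        (W' := (Wℤ.map (Int.castRingHom ℚ) : Affine ℚ)⁄Qbar) x y h ∈ N.map φ}.Finite := by
      refine s.finite_toSet.subset ?_
      rintro x ⟨y, h, hQ⟩
      exact (hs x).mpr ⟨y, h, hNp₀ _ hQ⟩
    obtain ⟨XN, hXN⟩ : ∃ XN : Finset Qbar, ∀ x, x ∈ XN ↔ ∃ y h, Point.some
        (W' := (Wℤ.map (Int.castRingHom ℚ) : Affine ℚ)⁄Qbar) x y h ∈ N.map φ :=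
      ⟨hfin.toFinset, fun x => hfin.mem_toFinset⟩
    -- the product of these `x`-coordinates is rational
    have hfix : ∀ σ : Qbar ≃ₐ[ℚ] Qbar, σ (∏ x ∈ XN, x) = ∏ x ∈ XN, x := by
      intro σ
      have himg : XN.image σ = XN := by
        apply Finset.eq_of_subset_of_card_le
        · intro x' hx'
          obtain ⟨x, hx, rfl⟩ := Finset.mem_image.mp hx'
          obtain ⟨y, h, hQ⟩ := (hXN x).mp hx
          have := hstab₀ σ _ hQ
          rw [Point.map_some] at this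
          exact (hXN _).mpr ⟨_, _, this⟩
        · rw [Finset.card_image_of_injective _ σ.injective]
      rw [map_prod]
      conv_rhs => rw [← himg]
      rw [Finset.prod_image (fun x _ y _ hxy => σ.injective hxy)]
    obtain ⟨t, ht⟩ := Fermat.Agent.Lib.GalQbar.exists_ratCast_of_fixed _ hfix
    -- `p` divides the denominator of `t`: otherwise `σ₀` would fix `N` pointwise
    have hden : P.p ∣ t.den := by
      by_contra hden
      have hprod : A.valuation (∏ x ∈ XN, x) ≤ 1 := by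
        rw [← ht]
        exact val_rat_le_one A hp hpA t hden
      have hmem : φ (σ₀ • x₀ - x₀) ∈ N.map φ :=
        (hmemN₀ _).mpr (N.sub_mem (hNstab σ₀ x₀ hx₀N) hx₀N)
      have h1 := hin σ₀ hσ₀ x₀ 1 (by rw [pow_one]; exact hNp x₀ hx₀N)
      have h0 := eq_zero_of_inE1 A.valuation hWK ha hb (N.map φ) hcyc XN hXN hprod hmem
        ((hmemE1₀ _).mp h1)
      have h3 := hφinj (h0.trans (map_zero φ).symm)
      exact hx₀ (sub_eq_zero.mp h3)
    have hprod : (A.valuation ((P.p : ℕ) : Qbar))⁻¹ ≤ A.valuation (∏ x ∈ XN, x) := by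
      rw [← ht]
      exact inv_val_le_val_rat A hp hpA t hden
    have hxφ : (P.p : ℤ) • φ x = 0 := by
      rw [← map_zsmul, natCast_zsmul, hxp, map_zero]
    have hfinal := mem_of_inE1 A.valuation hWK ha hb hpK hpA s hs hpre
      (fun n => val_coeff_preΨ_le_one A Wℤ _ n) (N.map φ) hNp₀ hcyc XN hXN hprod hxφ
      ((hmemE1₀ _).mp hx)
    exact (hmemN₀ x).mp hfinal

end Fermat.Agent.S12P.LocP86
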