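/-
S12 project, row S12-LOCP (helper86): `locPInst : Fermat.Agent.S12P.LocP` — the interface Prop of
`S12P/Interfaces20.lean` (helper20), proved by `LocP86.locP` (`S12P/LocP86/Main.lean`).
-/
import Fermat.Agent.S12P.Interfaces20
import Fermat.Agent.S12P.LocP86.Main

set_option autoImplicit false

namespace Fermat.Agent.S12P.LocP86

/-- **(LOCP)** of `Interfaces20`. -/
theorem locPInst : Fermat.Agent.S12P.LocP := locP

end Fermat.Agent.S12P.LocP86
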